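/-
S17lib / Red / HB  (helper1) — Project G, block RED, part 1.

The calculus of *height-bounded functions*.  `X` is a parameter type and `z : X → ι → Qb` a finite
family of coordinate functions.  A function `φ : X → Qb` is height-bounded (`HB z φ`) if at every
place `p` and for every Galois conjugation `σ`
  `log⁺ |σ (φ x)|_p ≤ c p + E · Σ_i log⁺ |σ (z x i)|_p`
with a finitely supported `c` and an exponent `E` independent of `x`, `σ`, `p`.
The class is closed under the ring operations, determinants, eigenvalues of matrices with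
height-bounded entries; and a root `ρ` of a nonzero polynomial with height-bounded coefficients
satisfies `h1 ρ ≤ A · Σ_i h1 (z x i) + B` (helper8's master lemma).
-/
import Mathlib
import Fermat.Agent.S17lib.HT.Basic

set_option autoImplicit false

noncomputable section

namespace Fermat.Agent.S17lib.Red

open Fermat.Agent.S17lib.HT Function

/-! ### local lemmas for the absolute values `x ↦ |σ x|_p` -/

/-- the absolute value `x ↦ |σ x|_p` on `Qb` -/
def av (p : Plc) (σ : GQ) : AbsoluteValue Qb ℝ :=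
  (absv p).comp (f := (σ.toRingEquiv.toRingHom : Qb →+* Qb)) σ.injective

theorem av_apply (p : Plc) (σ : GQ) (x : Qb) : av p σ x = absv p (σ x) := rfl

theorem lp_conj_eq (p : Plc) (σ : GQ) (x : Qb) : lp p (σ x) = Real.log (max 1 (av p σ x)) := rfl

/-- the constant in the bound for a sum of `n` terms -/
def cn (p : Plc) (n : ℕ) : ℝ := if p = none then (n : ℝ) else 1

theorem cn_none (n : ℕ) : cn none n = n := by simp [cn]

theorem cn_some (q : Nat.Primes) (n : ℕ) : cn (some q) n = 1 := by simp [cn]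

theorem cn_nonneg (p : Plc) (n : ℕ) : 0 ≤ cn p n := by
  unfold cn; split_ifs <;> positivity

theorem cn_mono (p : Plc) {n m : ℕ} (h : n ≤ m) : cn p n ≤ cn p m := by
  unfold cn; split_ifs
  · exact_mod_cast h
  · exact le_rfl

theorem one_le_cn (p : Plc) {n : ℕ} (h : 1 ≤ n) : 1 ≤ cn p n := by
  unfold cn; split_ifs
  · exact_mod_cast h
  · exact le_rfl

theorem log_cn (p : Plc) (n : ℕ) : Real.log (cn p n) = cArch (Real.log n) p := by
  unfold cn cArch; split_ifs <;> simp

theorem av_sum_le (p : Plc) (σ : GQ) {κ : Type*} (s : Finset κ) (f : κ → Qb) {B : ℝ}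
    (hB : 0 ≤ B) (h : ∀ k ∈ s, av p σ (f k) ≤ B) :
    av p σ (∑ k ∈ s, f k) ≤ cn p s.card * B := by
  rcases p with _ | q
  · rw [cn_none]
    calc av none σ (∑ k ∈ s, f k) ≤ ∑ k ∈ s, av none σ (f k) := (av none σ).sum_le s f
      _ ≤ ∑ _k ∈ s, B := Finset.sum_le_sum h
      _ = s.card * B := by rw [Finset.sum_const, nsmul_eq_mul]
  · rw [cn_some, one_mul]
    have hna : IsNonarchimedean (av (some q) σ) := by
      intro x y
      simp only [av_apply, map_add]
      exact absv_some_isNonarchimedean q _ _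
    exact nonarch_sum_le hna s f hB h

theorem lp_conj_add_le (p : Plc) (σ : GQ) (x y : Qb) :
    lp p (σ (x + y)) ≤ lp p (σ x) + lp p (σ y) + cArch (Real.log 2) p := by
  rw [map_add]
  rcases p with _ | q
  · have := lp_add_le_none (σ x) (σ y)
    simpa [cArch] using this
  · have := lp_add_le_some q (σ x) (σ y)
    have h1 := lp_nonneg (some q) (σ x)
    have h2 := lp_nonneg (some q) (σ y)
    have h3 : max (lp (some q) (σ x)) (lp (some q) (σ y)) ≤ lp (some q) (σ x) + lp (some q) (σ y) :=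
      max_le (by linarith) (by linarith)
    simp only [cArch, reduceCtorEq, if_false, add_zero]
    linarith

theorem lp_conj_mul_le (p : Plc) (σ : GQ) (x y : Qb) :
    lp p (σ (x * y)) ≤ lp p (σ x) + lp p (σ y) := by
  rw [map_mul]; exact lp_mul_le p _ _

theorem lp_conj_neg (p : Plc) (σ : GQ) (x : Qb) : lp p (σ (-x)) = lp p (σ x) := by
  rw [map_neg]; unfold HT.lp; rw [map_neg_eq_map]

theorem cArch_nonneg {r : ℝ} (hr : 0 ≤ r) (p : Plc) : 0 ≤ cArch r p := by
  unfold cArch; split_ifs <;> simp [hr]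


/-! ### height-bounded functions -/

section HBdef

variable {X : Type*} {ι : Type*} [Fintype ι]

/-- the local size of the coordinates -/
def zs (z : X → ι → Qb) (x : X) (σ : GQ) (p : Plc) : ℝ := ∑ i, lp p (σ (z x i))

theorem zs_nonneg (z : X → ι → Qb) (x : X) (σ : GQ) (p : Plc) : 0 ≤ zs z x σ p :=
  Finset.sum_nonneg fun _ _ => lp_nonneg _ _

/-- `φ` is height-bounded with respect to the coordinates `z` -/
def HB (z : X → ι → Qb) (φ : X → Qb) : Prop :=
  ∃ (E : ℕ) (c : Plc → ℝ), c.HasFiniteSupport ∧ (∀ p, 0 ≤ c p) ∧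
    ∀ (x : X) (σ : GQ) (p : Plc), lp p (σ (φ x)) ≤ c p + E * zs z x σ p

variable {z : X → ι → Qb}

theorem HB.congr {φ ψ : X → Qb} (h : HB z φ) (he : ∀ x, φ x = ψ x) : HB z ψ := by
  have : φ = ψ := funext he
  rwa [← this]

/-- the orbit bound of a constant -/
def cConst (a : Qb) : Plc → ℝ := fun p => ∑ y ∈ (finite_orbit_Qb a).toFinset, lp p y

theorem cConst_hasFiniteSupport (a : Qb) : (cConst a).HasFiniteSupport :=
  Function.HasFiniteSupport.sum (fun y => fs_lp y) _

theorem cConst_nonneg (a : Qb) (p : Plc) : 0 ≤ cConst a p :=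
  Finset.sum_nonneg fun _ _ => lp_nonneg _ _

theorem lp_conj_le_cConst (a : Qb) (σ : GQ) (p : Plc) : lp p (σ a) ≤ cConst a p := by
  have hmem : σ a ∈ (finite_orbit_Qb a).toFinset := by
    rw [Set.Finite.mem_toFinset]
    exact ⟨σ, rfl⟩
  exact Finset.single_le_sum (f := fun y => lp p y) (fun y _ => lp_nonneg p y) hmem

theorem HB.const (a : Qb) : HB z (fun _ => a) :=
  ⟨0, cConst a, cConst_hasFiniteSupport a, cConst_nonneg a, fun x σ p => by
    have := lp_conj_le_cConst a σ p
    simpa using this⟩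

theorem HB.coord (i : ι) : HB z (fun x => z x i) :=
  ⟨1, fun _ => 0, HT.hasFiniteSupport_zero, fun _ => le_rfl, fun x σ p => by
    have : lp p (σ (z x i)) ≤ zs z x σ p :=
      Finset.single_le_sum (f := fun i => lp p (σ (z x i))) (fun i _ => lp_nonneg _ _)
        (Finset.mem_univ i)
    simpa using this⟩

theorem HB.add {φ ψ : X → Qb} (hφ : HB z φ) (hψ : HB z ψ) : HB z (fun x => φ x + ψ x) := by
  obtain ⟨E₁, c₁, hc₁, hc₁', h₁⟩ := hφ
  obtain ⟨E₂, c₂, hc₂, hc₂', h₂⟩ := hψ
  refine ⟨E₁ + E₂, fun p => c₁ p + c₂ p + cArch (Real.log 2) p,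
    (hc₁.fun_add hc₂).fun_add (cArch_hasFiniteSupport _), fun p => ?_, fun x σ p => ?_⟩
  · have := cArch_nonneg (Real.log_nonneg (by norm_num : (1 : ℝ) ≤ 2)) p
    have := hc₁' p; have := hc₂' p
    linarith
  · have := lp_conj_add_le p σ (φ x) (ψ x)
    have := h₁ x σ p; have := h₂ x σ p
    push_cast
    linarith

theorem HB.mul {φ ψ : X → Qb} (hφ : HB z φ) (hψ : HB z ψ) : HB z (fun x => φ x * ψ x) := by
  obtain ⟨E₁, c₁, hc₁, hc₁', h₁⟩ := hφ
  obtain ⟨E₂, c₂, hc₂, hc₂', h₂⟩ := hψ
  refine ⟨E₁ + E₂, fun p => c₁ p + c₂ p, hc₁.fun_add hc₂, fun p => ?_, fun x σ p => ?_⟩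
  · have := hc₁' p; have := hc₂' p
    linarith
  · have := lp_conj_mul_le p σ (φ x) (ψ x)
    have := h₁ x σ p; have := h₂ x σ p
    push_cast
    linarith

theorem HB.neg {φ : X → Qb} (hφ : HB z φ) : HB z (fun x => -φ x) := by
  obtain ⟨E₁, c₁, hc₁, hc₁', h₁⟩ := hφ
  exact ⟨E₁, c₁, hc₁, hc₁', fun x σ p => by rw [lp_conj_neg]; exact h₁ x σ p⟩

theorem HB.sub {φ ψ : X → Qb} (hφ : HB z φ) (hψ : HB z ψ) : HB z (fun x => φ x - ψ x) := by
  refine (hφ.add hψ.neg).congr fun x => ?_
  ring

theorem HB.zero : HB z (fun _ => (0 : Qb)) := HB.const 0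

theorem HB.one : HB z (fun _ => (1 : Qb)) := HB.const 1

theorem HB.sum {κ : Type*} (s : Finset κ) (f : κ → X → Qb) (h : ∀ k ∈ s, HB z (f k)) :
    HB z (fun x => ∑ k ∈ s, f k x) := by
  classical
  induction s using Finset.induction with
  | empty => simpa using (HB.zero (z := z))
  | insert a s ha ih =>
    have h1 : HB z (f a) := h a (Finset.mem_insert_self a s)
    have h2 := ih fun k hk => h k (Finset.mem_insert_of_mem hk)
    refine (h1.add h2).congr fun x => ?_
    rw [Finset.sum_insert ha]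

theorem HB.prod {κ : Type*} (s : Finset κ) (f : κ → X → Qb) (h : ∀ k ∈ s, HB z (f k)) :
    HB z (fun x => ∏ k ∈ s, f k x) := by
  classical
  induction s using Finset.induction with
  | empty => simpa using (HB.one (z := z))
  | insert a s ha ih =>
    have h1 : HB z (f a) := h a (Finset.mem_insert_self a s)
    have h2 := ih fun k hk => h k (Finset.mem_insert_of_mem hk)
    refine (h1.mul h2).congr fun x => ?_
    rw [Finset.prod_insert ha]

theorem HB.pow {φ : X → Qb} (hφ : HB z φ) (n : ℕ) : HB z (fun x => φ x ^ n) := by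
  refine (HB.prod (Finset.range n) (fun _ => φ) fun _ _ => hφ).congr fun x => ?_
  simp

theorem HB.const_mul (a : Qb) {φ : X → Qb} (hφ : HB z φ) : HB z (fun x => a * φ x) :=
  (HB.const a).mul hφ

theorem HB.polyEval (q : Polynomial Qb) {φ : X → Qb} (hφ : HB z φ) :
    HB z (fun x => q.eval (φ x)) := by
  refine (HB.sum (Finset.range (q.natDegree + 1)) (fun k x => q.coeff k * φ x ^ k)
    fun k _ => (hφ.pow k).const_mul _).congr fun x => ?_
  rw [Polynomial.eval_eq_sum_range]

theorem HB.det {m : Type*} [Fintype m] [DecidableEq m] (A : X → Matrix m m Qb)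
    (h : ∀ i j, HB z (fun x => A x i j)) : HB z (fun x => (A x).det) := by
  refine (HB.sum Finset.univ
    (fun (τ : Equiv.Perm m) x => ((Equiv.Perm.sign τ : ℤ) : Qb) * ∏ i, A x (τ i) i)
    fun τ _ => (HB.prod Finset.univ _ fun i _ => h (τ i) i).const_mul _).congr fun x => ?_
  rw [Matrix.det_apply']

theorem HB.adjugate {m : Type*} [Fintype m] [DecidableEq m] (A : X → Matrix m m Qb)
    (h : ∀ i j, HB z (fun x => A x i j)) (i j : m) : HB z (fun x => (A x).adjugate i j) := by
  have : ∀ x, (A x).adjugate i j = ((A x).updateRow j (Pi.single i 1)).det := fun x =>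
    Matrix.adjugate_apply (A x) i j
  refine (HB.det (fun x => (A x).updateRow j (Pi.single i 1)) fun k l => ?_).congr
    fun x => (this x).symm
  by_cases hk : k = j
  · subst hk
    by_cases hl : l = i
    · subst hl
      refine (HB.one (z := z)).congr fun x => ?_
      simp
    · refine (HB.zero (z := z)).congr fun x => ?_
      simp [hl]
  · refine (h k l).congr fun x => ?_
    simp [Matrix.updateRow_ne hk]

end HBdef


/-! ### two local estimates: eigenvalues and roots -/

section LocalEst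

theorem log_prod_max_one {κ : Type*} (s : Finset κ) (f : κ → ℝ) :
    Real.log (∏ k ∈ s, max 1 (f k)) = ∑ k ∈ s, Real.log (max 1 (f k)) :=
  Real.log_prod fun k _ => (lt_of_lt_of_le one_pos (le_max_left 1 (f k))).ne'

theorem one_le_prod_max_one {κ : Type*} (s : Finset κ) (f : κ → ℝ) :
    1 ≤ ∏ k ∈ s, max 1 (f k) :=
  Finset.one_le_prod fun k _ => le_max_left 1 (f k)

theorem le_prod_max_one {κ : Type*} (s : Finset κ) (f : κ → ℝ) {k : κ} (hk : k ∈ s) :
    f k ≤ ∏ k ∈ s, max 1 (f k) := by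
  classical
  calc f k ≤ max 1 (f k) := le_max_right _ _
    _ = ∏ k' ∈ {k}, max 1 (f k') := by simp
    _ ≤ ∏ k' ∈ s, max 1 (f k') := by
      apply Finset.prod_le_prod_of_subset_of_one_le (Finset.singleton_subset_iff.mpr hk)
      · intro i _
        exact le_trans zero_le_one (le_max_left _ _)
      · intro i _ _
        exact le_max_left _ _

/-- an eigenvalue is bounded by the entries -/
theorem eig_local (p : Plc) (σ : GQ) {m : Type*} [Fintype m] (A : Matrix m m Qb) (w : m → Qb)
    (hw : w ≠ 0) (α : Qb) (h : A.mulVec w = α • w) :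
    lp p (σ α) ≤ cArch (Real.log (Fintype.card m)) p + ∑ i, ∑ j, lp p (σ (A i j)) := by
  classical
  set v := av p σ with hv
  obtain ⟨i₁, hi₁⟩ : ∃ i, w i ≠ 0 := by
    by_contra hcon
    exact hw (funext fun i => by_contra fun hi => hcon ⟨i, hi⟩)
  obtain ⟨i₀, -, hi₀⟩ := Finset.exists_max_image Finset.univ (fun i => v (w i))
    ⟨i₁, Finset.mem_univ _⟩
  have hpos : 0 < v (w i₀) := lt_of_lt_of_le (v.pos hi₁) (hi₀ i₁ (Finset.mem_univ _))
  set Bd : ℝ := ∏ i, ∏ j, max 1 (v (A i j)) with hBd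
  have hrow1 : ∀ i, 1 ≤ ∏ j, max 1 (v (A i j)) := fun i => one_le_prod_max_one _ _
  have hBd1 : 1 ≤ Bd := Finset.one_le_prod fun i _ => hrow1 i
  have hA : ∀ i j, v (A i j) ≤ Bd := by
    intro i j
    calc v (A i j) ≤ ∏ j, max 1 (v (A i j)) := le_prod_max_one _ (fun j => v (A i j)) (Finset.mem_univ j)
      _ = ∏ i' ∈ {i}, ∏ j, max 1 (v (A i' j)) := by simp
      _ ≤ Bd := by
        apply Finset.prod_le_prod_of_subset_of_one_le (Finset.subset_univ _)
        · intro i' _
          exact le_trans zero_le_one (hrow1 i')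
        · intro i' _ _
          exact hrow1 i'
  have hcard : 1 ≤ Fintype.card m := Fintype.card_pos_iff.mpr ⟨i₁⟩
  have key : v α * v (w i₀) ≤ cn p (Fintype.card m) * (Bd * v (w i₀)) := by
    have h1 : ∑ j, A i₀ j * w j = α * w i₀ := by
      have := congrFun h i₀
      simpa [Matrix.mulVec, dotProduct] using this
    rw [← map_mul, ← h1]
    refine av_sum_le p σ Finset.univ _ (by positivity) fun j _ => ?_
    rw [map_mul]
    exact mul_le_mul (hA i₀ j) (hi₀ j (Finset.mem_univ _)) (v.nonneg _) (by positivity)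
  have hα : v α ≤ cn p (Fintype.card m) * Bd := by
    have : v α * v (w i₀) ≤ (cn p (Fintype.card m) * Bd) * v (w i₀) := by linarith [key]
    exact le_of_mul_le_mul_right this hpos
  have hcn1 : 1 ≤ cn p (Fintype.card m) := one_le_cn p hcard
  have h1le : 1 ≤ cn p (Fintype.card m) * Bd := one_le_mul_of_one_le_of_one_le hcn1 hBd1
  rw [lp_conj_eq]
  calc Real.log (max 1 (v α)) ≤ Real.log (cn p (Fintype.card m) * Bd) :=
        Real.log_le_log (by positivity) (max_le h1le hα)
    _ = Real.log (cn p (Fintype.card m)) + Real.log Bd :=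
        Real.log_mul (by positivity) (by positivity)
    _ = cArch (Real.log (Fintype.card m)) p + ∑ i, ∑ j, lp p (σ (A i j)) := by
        rw [log_cn, hBd, Real.log_prod fun i _ => (lt_of_lt_of_le one_pos (hrow1 i)).ne']
        congr 1
        refine Finset.sum_congr rfl fun i _ => ?_
        rw [log_prod_max_one]
        rfl

open Polynomial in
/-- a root of a nonzero polynomial is bounded by the coefficients, relative to the leading one -/
theorem root_local (p : Plc) (σ : GQ) (P : Qb[X]) (hP : P ≠ 0) (ρ : Qb) (h : P.eval ρ = 0)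
    (N : ℕ) (hN : P.natDegree ≤ N) :
    lp p (σ ρ) + Real.log (absv p (σ P.leadingCoeff)) ≤
      cArch (Real.log N) p + ∑ i ∈ Finset.range (N + 1), lp p (σ (P.coeff i)) := by
  classical
  set v := av p σ with hv
  set m := P.natDegree with hm
  have hm1 : 1 ≤ m := by
    by_contra hcon
    have hm0 : P.natDegree = 0 := by omega
    rw [Polynomial.eq_C_of_natDegree_eq_zero hm0, Polynomial.eval_C] at h
    apply hP
    rw [Polynomial.eq_C_of_natDegree_eq_zero hm0, h, map_zero]
  have hN1 : 1 ≤ N := hm1.trans hN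
  have hlead : P.leadingCoeff ≠ 0 := Polynomial.leadingCoeff_ne_zero.mpr hP
  have hvlead : 0 < v P.leadingCoeff := v.pos hlead
  set Bd : ℝ := ∏ i ∈ Finset.range (N + 1), max 1 (v (P.coeff i)) with hBd
  have hBd1 : 1 ≤ Bd := one_le_prod_max_one _ _
  have hco : ∀ i, i ≤ N → v (P.coeff i) ≤ Bd := fun i hi =>
    le_prod_max_one _ (fun i => v (P.coeff i)) (Finset.mem_range.mpr (by omega))
  have hcn1 : 1 ≤ cn p N := one_le_cn p hN1
  -- the main inequality
  have main : v P.leadingCoeff * max 1 (v ρ) ≤ cn p N * Bd := by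
    rcases le_or_gt (v ρ) 1 with hρ | hρ
    · rw [max_eq_left hρ, mul_one]
      calc v P.leadingCoeff ≤ Bd := hco m hN
        _ ≤ cn p N * Bd := by nlinarith
    · rw [max_eq_right hρ.le]
      have hρpos : 0 < v ρ := lt_trans one_pos hρ
      have h1 : P.leadingCoeff * ρ ^ m = -∑ i ∈ Finset.range m, P.coeff i * ρ ^ i := by
        have h2 := h
        rw [Polynomial.eval_eq_sum_range, Finset.sum_range_succ] at h2
        rw [Polynomial.leadingCoeff]
        linear_combination h2
      have h3 : v (P.leadingCoeff * ρ ^ m) ≤ cn p m * (Bd * v ρ ^ (m - 1)) := by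
        rw [h1, map_neg_eq_map]
        have := av_sum_le p σ (Finset.range m) (fun i => P.coeff i * ρ ^ i)
          (B := Bd * v ρ ^ (m - 1)) (by positivity) fun i hi => by
            rw [Finset.mem_range] at hi
            rw [map_mul, map_pow]
            refine mul_le_mul (hco i (by omega)) ?_ (by positivity) (by positivity)
            exact pow_le_pow_right₀ hρ.le (by omega)
        simpa using this
      rw [map_mul, map_pow] at h3
      have h4 : v ρ ^ m = v ρ * v ρ ^ (m - 1) := by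
        rw [← pow_succ']
        congr 1
        omega
      rw [h4] at h3
      have h5 : (v P.leadingCoeff * v ρ) * v ρ ^ (m - 1) ≤ (cn p m * Bd) * v ρ ^ (m - 1) := by
        linarith [h3]
      have h6 := le_of_mul_le_mul_right h5 (by positivity)
      calc v P.leadingCoeff * v ρ ≤ cn p m * Bd := h6
        _ ≤ cn p N * Bd := by
          apply mul_le_mul_of_nonneg_right (cn_mono p hN) (by positivity)
  have hlog := Real.log_le_log (by positivity) main
  rw [Real.log_mul hvlead.ne' (by positivity), Real.log_mul (by positivity) (by positivity),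
    log_cn, hBd, log_prod_max_one] at hlog
  rw [lp_conj_eq]
  have e1 : Real.log (absv p (σ P.leadingCoeff)) = Real.log (v P.leadingCoeff) := rfl
  rw [e1]
  have e2 : ∑ i ∈ Finset.range (N + 1), lp p (σ (P.coeff i))
      = ∑ i ∈ Finset.range (N + 1), Real.log (max 1 (v (P.coeff i))) := rfl
  rw [e2]
  linarith

end LocalEst


/-! ### families, eigenvalues -/

section HBfam

variable {X : Type*} {ι : Type*} [Fintype ι] {z : X → ι → Qb}

/-- a uniform bound for a finite family of height-bounded functions -/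
theorem HB.family {κ : Type*} (s : Finset κ) (f : κ → X → Qb) (h : ∀ k ∈ s, HB z (f k)) :
    ∃ (E : ℕ) (c : Plc → ℝ), c.HasFiniteSupport ∧ (∀ p, 0 ≤ c p) ∧
      ∀ (x : X) (σ : GQ) (p : Plc), ∑ k ∈ s, lp p (σ (f k x)) ≤ c p + E * zs z x σ p := by
  classical
  induction s using Finset.induction with
  | empty =>
    exact ⟨0, fun _ => 0, HT.hasFiniteSupport_zero, fun _ => le_rfl, fun x σ p => by simp⟩
  | insert a s ha ih =>
    obtain ⟨E₁, c₁, hc₁, hc₁', h₁⟩ := h a (Finset.mem_insert_self a s)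
    obtain ⟨E₂, c₂, hc₂, hc₂', h₂⟩ := ih fun k hk => h k (Finset.mem_insert_of_mem hk)
    refine ⟨E₁ + E₂, fun p => c₁ p + c₂ p, hc₁.fun_add hc₂, fun p => ?_, fun x σ p => ?_⟩
    · have := hc₁' p; have := hc₂' p
      linarith
    · rw [Finset.sum_insert ha]
      have := h₁ x σ p; have := h₂ x σ p
      push_cast
      linarith

/-- eigenvalues of matrices with height-bounded entries are height-bounded -/
theorem HB.eigen {m : Type*} [Fintype m] (A : X → Matrix m m Qb)
    (hA : ∀ i j, HB z (fun x => A x i j)) (α : X → Qb)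
    (h : ∀ x, ∃ w : m → Qb, w ≠ 0 ∧ (A x).mulVec w = α x • w) : HB z α := by
  classical
  obtain ⟨E, c, hc, hc', hb⟩ := HB.family (z := z) (Finset.univ : Finset (m × m))
    (fun ij x => A x ij.1 ij.2) fun ij _ => hA ij.1 ij.2
  refine ⟨E, fun p => cArch (Real.log (Fintype.card m)) p + c p,
    (cArch_hasFiniteSupport _).fun_add hc, fun p => ?_, fun x σ p => ?_⟩
  · have := cArch_nonneg (Real.log_natCast_nonneg (Fintype.card m)) p
    have := hc' p
    linarith
  · obtain ⟨w, hw, hAw⟩ := h x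
    have h1 := eig_local p σ (A x) w hw (α x) hAw
    have h2 := hb x σ p
    rw [Fintype.sum_prod_type] at h2
    linarith

end HBfam

/-! ### height-bounded functions with values in an algebra -/

section HBAdef

variable {X : Type*} {ι : Type*} [Fintype ι]

/-- `φ : X → 𝔸` is a combination of constant vectors with height-bounded coefficients -/
def HBA {𝔸 : Type*} [Semiring 𝔸] [Algebra Qb 𝔸] (z : X → ι → Qb) (φ : X → 𝔸) : Prop :=
  ∃ (ν : Type) (_ : Fintype ν) (c : ν → X → Qb) (w : ν → 𝔸),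
    (∀ k, HB z (c k)) ∧ ∀ x, φ x = ∑ k, c k x • w k

variable {z : X → ι → Qb} {𝔸 : Type*} [Semiring 𝔸] [Algebra Qb 𝔸]

theorem HBA.congr {φ ψ : X → 𝔸} (h : HBA z φ) (he : ∀ x, φ x = ψ x) : HBA z ψ := by
  have : φ = ψ := funext he
  rwa [← this]

theorem HBA.const (w : 𝔸) : HBA z (fun _ => w) :=
  ⟨Unit, inferInstance, fun _ _ => 1, fun _ => w, fun _ => HB.one, fun x => by simp⟩

theorem HBA.smul {a : X → Qb} (ha : HB z a) {φ : X → 𝔸} (hφ : HBA z φ) :
    HBA z (fun x => a x • φ x) := by
  obtain ⟨ν, _, c, w, hc, hφ⟩ := hφ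
  refine ⟨ν, inferInstance, fun k x => a x * c k x, w, fun k => ha.mul (hc k), fun x => ?_⟩
  dsimp only
  rw [hφ x, Finset.smul_sum]
  exact Finset.sum_congr rfl fun k _ => by rw [smul_smul]

theorem HBA.ofHB {a : X → Qb} (ha : HB z a) : HBA z (fun x => algebraMap Qb 𝔸 (a x)) := by
  refine (HBA.smul ha (HBA.const (1 : 𝔸))).congr fun x => ?_
  rw [Algebra.algebraMap_eq_smul_one]

theorem HBA.add {φ ψ : X → 𝔸} (hφ : HBA z φ) (hψ : HBA z ψ) : HBA z (fun x => φ x + ψ x) := by
  obtain ⟨ν, _, c, w, hc, hφ⟩ := hφ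
  obtain ⟨ν', _, c', w', hc', hψ⟩ := hψ
  refine ⟨ν ⊕ ν', inferInstance, Sum.elim c c', Sum.elim w w', ?_, fun x => ?_⟩
  · rintro (k | k)
    · exact hc k
    · exact hc' k
  · dsimp only
    rw [hφ x, hψ x, Fintype.sum_sum_type]
    rfl

theorem HBA.mul {φ ψ : X → 𝔸} (hφ : HBA z φ) (hψ : HBA z ψ) : HBA z (fun x => φ x * ψ x) := by
  obtain ⟨ν, _, c, w, hc, hφ⟩ := hφ
  obtain ⟨ν', _, c', w', hc', hψ⟩ := hψ
  refine ⟨ν × ν', inferInstance, fun kl x => c kl.1 x * c' kl.2 x, fun kl => w kl.1 * w' kl.2,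
    fun kl => (hc kl.1).mul (hc' kl.2), fun x => ?_⟩
  dsimp only
  rw [hφ x, hψ x, Finset.sum_mul_sum, Fintype.sum_prod_type]
  refine Finset.sum_congr rfl fun k _ => Finset.sum_congr rfl fun l _ => ?_
  rw [smul_mul_smul_comm]

theorem HBA.zero : HBA z (fun _ => (0 : 𝔸)) := HBA.const 0

theorem HBA.one : HBA z (fun _ => (1 : 𝔸)) := HBA.const 1

theorem HBA.sum {κ : Type*} (s : Finset κ) (f : κ → X → 𝔸) (h : ∀ k ∈ s, HBA z (f k)) :
    HBA z (fun x => ∑ k ∈ s, f k x) := by
  classical
  induction s using Finset.induction with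
  | empty => simpa using (HBA.zero (z := z) (𝔸 := 𝔸))
  | insert a s ha ih =>
    have h1 : HBA z (f a) := h a (Finset.mem_insert_self a s)
    have h2 := ih fun k hk => h k (Finset.mem_insert_of_mem hk)
    refine (h1.add h2).congr fun x => ?_
    rw [Finset.sum_insert ha]

theorem HBA.map {𝔹 : Type*} [Semiring 𝔹] [Algebra Qb 𝔹] (L : 𝔸 →ₗ[Qb] 𝔹) {φ : X → 𝔸}
    (hφ : HBA z φ) : HBA z (fun x => L (φ x)) := by
  obtain ⟨ν, _, c, w, hc, hφ⟩ := hφ
  refine ⟨ν, inferInstance, c, fun k => L (w k), hc, fun x => ?_⟩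
  dsimp only
  rw [hφ x, map_sum]
  exact Finset.sum_congr rfl fun k _ => by rw [map_smul]

theorem HBA.toHB {φ : X → Qb} (hφ : HBA z φ) : HB z φ := by
  obtain ⟨ν, _, c, w, hc, hφ⟩ := hφ
  refine (HB.sum Finset.univ (fun k x => c k x * w k) fun k _ => (hc k).mul (HB.const _)).congr
    fun x => ?_
  rw [hφ x]
  rfl

theorem HBA.apply (L : 𝔸 →ₗ[Qb] Qb) {φ : X → 𝔸} (hφ : HBA z φ) : HB z (fun x => L (φ x)) :=
  (hφ.map L).toHB

theorem HB.toHBA {φ : X → Qb} (hφ : HB z φ) : HBA z φ :=
  (HBA.ofHB (𝔸 := Qb) hφ).congr fun _ => rfl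

end HBAdef

section HBAcomm

variable {X : Type*} {ι : Type*} [Fintype ι] {z : X → ι → Qb} {𝔸 : Type*} [CommRing 𝔸]
  [Algebra Qb 𝔸]

theorem HBA.neg {φ : X → 𝔸} (hφ : HBA z φ) : HBA z (fun x => -φ x) := by
  refine (HBA.smul (HB.const (-1 : Qb)) hφ).congr fun x => ?_
  simp

theorem HBA.sub {φ ψ : X → 𝔸} (hφ : HBA z φ) (hψ : HBA z ψ) : HBA z (fun x => φ x - ψ x) := by
  refine (hφ.add hψ.neg).congr fun x => ?_
  ring

theorem HBA.prod {κ : Type*} (s : Finset κ) (f : κ → X → 𝔸) (h : ∀ k ∈ s, HBA z (f k)) :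
    HBA z (fun x => ∏ k ∈ s, f k x) := by
  classical
  induction s using Finset.induction with
  | empty => simpa using (HBA.one (z := z) (𝔸 := 𝔸))
  | insert a s ha ih =>
    have h1 : HBA z (f a) := h a (Finset.mem_insert_self a s)
    have h2 := ih fun k hk => h k (Finset.mem_insert_of_mem hk)
    refine (h1.mul h2).congr fun x => ?_
    rw [Finset.prod_insert ha]

theorem HBA.pow {φ : X → 𝔸} (hφ : HBA z φ) (n : ℕ) : HBA z (fun x => φ x ^ n) := by
  refine (HBA.prod (Finset.range n) (fun _ => φ) fun _ _ => hφ).congr fun x => ?_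
  simp

theorem HBA.det {m : Type*} [Fintype m] [DecidableEq m] (A : X → Matrix m m 𝔸)
    (h : ∀ i j, HBA z (fun x => A x i j)) : HBA z (fun x => (A x).det) := by
  refine (HBA.sum Finset.univ
    (fun (τ : Equiv.Perm m) x => ((Equiv.Perm.sign τ : ℤ) : 𝔸) * ∏ i, A x (τ i) i)
    fun τ _ => (HBA.const _).mul (HBA.prod Finset.univ _ fun i _ => h (τ i) i)).congr fun x => ?_
  rw [Matrix.det_apply']

end HBAcomm

/-! ### the root bound -/

section RootBound

open Polynomial

variable {X : Type*} {ι : Type*} [Fintype ι] {z : X → ι → Qb}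

/-- **the root bound**: a root of a nonzero polynomial with height-bounded coefficients has height
bounded linearly in the heights of the coordinates -/
theorem HBA.root_bound (φ : X → Qb[X]) (hφ : HBA z φ) :
    ∃ A B : ℝ, 0 ≤ A ∧ 0 ≤ B ∧ ∀ (x : X) (ρ : Qb), φ x ≠ 0 → (φ x).eval ρ = 0 →
      h1 ρ ≤ A * ∑ i, h1 (z x i) + B := by
  classical
  -- a degree bound
  obtain ⟨N, hN⟩ : ∃ N : ℕ, ∀ x, (φ x).natDegree ≤ N := by
    obtain ⟨ν, _, c, w, hc, hφ'⟩ := hφ
    refine ⟨Finset.univ.sup fun k => (w k).natDegree, fun x => ?_⟩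
    rw [hφ' x]
    refine Polynomial.natDegree_sum_le_of_forall_le _ _ fun k _ => ?_
    exact (Polynomial.natDegree_smul_le _ _).trans
      (Finset.le_sup (f := fun k => (w k).natDegree) (Finset.mem_univ k))
  -- the coefficients are height-bounded
  have hcoef : ∀ i, HB z (fun x => (φ x).coeff i) := fun i => hφ.apply (Polynomial.lcoeff Qb i)
  obtain ⟨E, c, hc, hc', hb⟩ := HB.family (z := z) (Finset.range (N + 1))
    (fun i x => (φ x).coeff i) fun i _ => hcoef i
  set c' : Plc → ℝ := fun p => cArch (Real.log N) p + c p with hc'def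
  have hc'fs : c'.HasFiniteSupport := (cArch_hasFiniteSupport _).fun_add hc
  have hc'nn : ∀ p, 0 ≤ c' p := fun p => by
    have := cArch_nonneg (Real.log_natCast_nonneg N) p
    have := hc' p
    simp only [hc'def]
    linarith
  refine ⟨E, ∑ᶠ p, c' p, Nat.cast_nonneg E, finsum_nonneg hc'nn, fun x ρ hx hρ => ?_⟩
  have hlead : (φ x).leadingCoeff ≠ 0 := Polynomial.leadingCoeff_ne_zero.mpr hx
  -- the master lemma
  let zz : Option (Option ι) → Qb := fun o =>
    match o with
    | none => ρ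
    | some none => (φ x).leadingCoeff
    | some (some i) => z x i
  let aa : Option (Option ι) → ℝ := fun o =>
    match o with
    | none => 1
    | some none => 0
    | some (some _) => -(E : ℝ)
  let bb : Option (Option ι) → ℝ := fun o =>
    match o with
    | none => 0
    | some none => 1
    | some (some _) => 0
  have hβ : ∀ o, zz o = 0 → bb o = 0 := by
    rintro (_ | _ | i) ho
    · rfl
    · exact absurd ho hlead
    · rfl
  have hm := master zz aa bb hβ c' hc'fs (fun σ p => by
      simp only [Fintype.sum_option, zz, aa, bb]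
      have h1 := root_local p σ (φ x) hx ρ hρ N (hN x)
      have h2 := hb x σ p
      have h3 : ∑ i, -(E : ℝ) * lp p (σ (z x i)) = -(E : ℝ) * zs z x σ p := by
        rw [zs, Finset.mul_sum]
      simp only [hc'def]
      rw [h3]
      simp only [one_mul, zero_mul, Finset.sum_const_zero, add_zero, zero_add]
      linarith)
  simp only [Fintype.sum_option, zz, aa] at hm
  have h4 : ∑ i, -(E : ℝ) * h1 (z x i) = -(E : ℝ) * ∑ i, h1 (z x i) := by
    rw [Finset.mul_sum]
  rw [h4] at hm
  linarith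

end RootBound

end Fermat.Agent.S17lib.Red
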