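/-
S17lib / Red / Eval  (helper1) — Project G, block RED, part 2.

The ring `regRing inf` of functions regular away from the place `inf`, and the evaluation
homomorphisms `evalHom P : regRing inf →ₐ[K] K` at the rational places `P ≠ inf`
(bundling `LSb.Core.valAt`).
-/
import Mathlib
import Fermat.Agent.LSb.Core.ValAt
import Fermat.Agent.S18lib.Setup.CurveRR

set_option autoImplicit false

noncomputable section

namespace Fermat.Agent.S17lib.Red

open AlgebraicCurve Fermat.Agent.LSb.Core Fermat.Agent.ProgramR Fermat.Agent.S18lib.Cech Polynomial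

variable {K F : Type*} [Field K] [Field F] [Algebra K F]

/-- the functions regular away from `inf` -/
def regRing (inf : Place K F) : Subalgebra K F where
  carrier := {f | ∀ P : Place K F, P ≠ inf → f ∈ P.toValuationSubring}
  mul_mem' := fun hf hg P hP => mul_mem (hf P hP) (hg P hP)
  one_mem' := fun _ _ => one_mem _
  add_mem' := fun hf hg P hP => add_mem (hf P hP) (hg P hP)
  zero_mem' := fun _ _ => zero_mem _
  algebraMap_mem' := fun c P _ => P.algebraMap_mem' c

theorem mem_regRing {inf : Place K F} {f : F} :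
    f ∈ regRing inf ↔ ∀ P : Place K F, P ≠ inf → f ∈ P.toValuationSubring := Iff.rfl

theorem mem_regRing_iff_ord {inf : Place K F} {f : F} :
    f ∈ regRing inf ↔ ∀ P : Place K F, P ≠ inf → 0 ≤ P.ord f :=
  forall_congr' fun P => imp_congr_right fun _ => FF.mem_iff_ord_nonneg P f

/-- the spaces `L(M · inf)` consist of functions regular away from `inf` -/
theorem mem_regRing_of_mem_rr {inf : Place K F} {M : ℤ} {f : F}
    (hf : f ∈ riemannRochSpace (M • Finsupp.single inf (1 : ℤ))) : f ∈ regRing inf := by
  classical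
  intro P hP
  refine mem_of_mem_rr (E := M • Finsupp.single inf (1 : ℤ)) ?_ hf
  rw [Finsupp.smul_apply, Finsupp.single_apply, if_neg (Ne.symm hP)]
  simp

/-- evaluation at a rational place `P ≠ inf` -/
def evalHom {inf : Place K F} (P : Place K F) (hdeg : P.deg = 1) (hP : P ≠ inf) :
    regRing inf →ₐ[K] K where
  toFun f := valAt P (f : F)
  map_one' := valAt_one P
  map_mul' f g := valAt_mul P hdeg (f.2 P hP) (g.2 P hP)
  map_zero' := valAt_zero P
  map_add' f g := valAt_add P hdeg (f.2 P hP) (g.2 P hP)
  commutes' c := valAt_algebraMap P c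

@[simp] theorem evalHom_apply {inf : Place K F} (P : Place K F) (hdeg : P.deg = 1) (hP : P ≠ inf)
    (f : regRing inf) : evalHom P hdeg hP f = valAt P (f : F) := rfl

section

variable {inf : Place K F} (P : Place K F) (hdeg : P.deg = 1) (hP : P ≠ inf)
include hdeg hP

theorem valAt_sum_reg {κ : Type*} (s : Finset κ) (f : κ → F) (hf : ∀ k ∈ s, f k ∈ regRing inf) :
    valAt P (∑ k ∈ s, f k) = ∑ k ∈ s, valAt P (f k) := by
  classical
  have h := map_sum (evalHom P hdeg hP) (fun k : s => (⟨f k, hf k k.2⟩ : regRing inf))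
    Finset.univ
  simp only [evalHom_apply, AddSubmonoidClass.coe_finsetSum] at h
  rw [← Finset.sum_coe_sort s f, h]
  exact Finset.sum_coe_sort s fun k => valAt P (f k)

theorem valAt_prod_reg {κ : Type*} (s : Finset κ) (f : κ → F) (hf : ∀ k ∈ s, f k ∈ regRing inf) :
    valAt P (∏ k ∈ s, f k) = ∏ k ∈ s, valAt P (f k) := by
  classical
  have h := map_prod (evalHom P hdeg hP) (fun k : s => (⟨f k, hf k k.2⟩ : regRing inf))
    Finset.univ
  simp only [evalHom_apply, SubmonoidClass.coe_finsetProd] at h
  rw [← Finset.prod_coe_sort s f, h]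
  exact Finset.prod_coe_sort s fun k => valAt P (f k)

theorem valAt_mul_reg {f g : F} (hf : f ∈ regRing inf) (hg : g ∈ regRing inf) :
    valAt P (f * g) = valAt P f * valAt P g :=
  valAt_mul P hdeg (hf P hP) (hg P hP)

theorem valAt_aeval_reg {t : F} (ht : t ∈ regRing inf) (q : K[X]) :
    valAt P (aeval t q) = q.eval (valAt P t) := by
  have h1 : (aeval (⟨t, ht⟩ : regRing inf) q : F) = aeval t q :=
    Polynomial.aeval_subalgebra_coe q (regRing inf) ⟨t, ht⟩
  have h2 := Polynomial.aeval_algHom_apply (evalHom P hdeg hP) (⟨t, ht⟩ : regRing inf) q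
  rw [evalHom_apply, evalHom_apply, h1] at h2
  rw [← h2, Polynomial.coe_aeval_eq_eval]

end

theorem aeval_mem_regRing {inf : Place K F} {t : F} (ht : t ∈ regRing inf) (q : K[X]) :
    aeval t q ∈ regRing inf := by
  have h1 : (aeval (⟨t, ht⟩ : regRing inf) q : F) = aeval t q :=
    Polynomial.aeval_subalgebra_coe q (regRing inf) ⟨t, ht⟩
  rw [← h1]
  exact (aeval (⟨t, ht⟩ : regRing inf) q).2

end Fermat.Agent.S17lib.Red
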