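/-
S17lib / Red / Norm  (helper1) — Project G, block RED, part 3.

Consequences of an Apéry basis `θ` of `regRing inf` over `K[t]` (`t` a function whose only pole is
`inf`): every regular function `b` acts on the basis by a matrix `n` over `K[X]`
(`IsMulMatrix`); evaluating at a place `P ≠ inf`, the value `b(P)` is an eigenvalue of `n(t(P))`;
the norm polynomial `det n` is nonzero for `b ≠ 0`, and `t(Q)` is a root of it at every zero `Q`
of `b`.
-/
import Mathlib
import Fermat.Agent.S17lib.Red.Eval

set_option autoImplicit false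

noncomputable section

namespace Fermat.Agent.S17lib.Red

open AlgebraicCurve Fermat.Agent.LSb.Core Polynomial

variable {K F : Type*} [Field K] [Field F] [Algebra K F]

/-- an Apéry basis: a `K[t]`-basis `θ` of the ring of functions regular away from `inf` -/
structure Apery (inf : Place K F) (t : F) where
  d : ℕ
  θ : Fin d → F
  c₀ : Fin d
  θ_c₀ : θ c₀ = 1
  θ_mem : ∀ c, θ c ∈ regRing inf
  indep : ∀ p : Fin d → K[X], ∑ c, aeval t (p c) * θ c = 0 → p = 0
  span : ∀ f ∈ regRing inf, ∃ p : Fin d → K[X], f = ∑ c, aeval t (p c) * θ c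

variable {inf : Place K F} {t : F}

/-- `n` is a matrix of the multiplication by `b` in the basis `θ` -/
def IsMulMatrix (A : Apery inf t) (b : F) (n : Matrix (Fin A.d) (Fin A.d) K[X]) : Prop :=
  ∀ c, b * A.θ c = ∑ l, aeval t (n c l) * A.θ l

theorem exists_isMulMatrix (A : Apery inf t) {b : F} (hb : b ∈ regRing inf) :
    ∃ n, IsMulMatrix A b n := by
  have h : ∀ c, ∃ p : Fin A.d → K[X], b * A.θ c = ∑ l, aeval t (p l) * A.θ l := fun c =>
    A.span _ (mul_mem hb (A.θ_mem c))
  choose p hp using h
  exact ⟨Matrix.of p, hp⟩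

/-- multiplication matrices of linear combinations -/
theorem IsMulMatrix.sum (A : Apery inf t) {κ : Type*} [Fintype κ] (b : κ → F)
    (n : κ → Matrix (Fin A.d) (Fin A.d) K[X]) (h : ∀ j, IsMulMatrix A (b j) (n j)) (ξ : κ → K) :
    IsMulMatrix A (∑ j, ξ j • b j) (Matrix.of fun c l => ∑ j, C (ξ j) * n j c l) := by
  intro c
  simp only [Matrix.of_apply]
  rw [Finset.sum_mul]
  have h1 : ∀ j, ξ j • b j * A.θ c = ∑ l, aeval t (C (ξ j) * n j c l) * A.θ l := by
    intro j
    rw [smul_mul_assoc, h j c, Finset.smul_sum]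
    refine Finset.sum_congr rfl fun l _ => ?_
    rw [map_mul, aeval_C, Algebra.smul_def, mul_assoc]
  rw [Finset.sum_congr rfl fun j _ => h1 j, Finset.sum_comm]
  refine Finset.sum_congr rfl fun l _ => ?_
  rw [map_sum, Finset.sum_mul]

/-- the norm polynomial of a nonzero function is nonzero -/
theorem IsMulMatrix.det_ne_zero (A : Apery inf t) {b : F} {n : Matrix (Fin A.d) (Fin A.d) K[X]}
    (h : IsMulMatrix A b n) (hb : b ≠ 0) : n.det ≠ 0 := by
  intro hdet
  obtain ⟨v, hv0, hv⟩ := Matrix.exists_vecMul_eq_zero_iff.mpr hdet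
  apply hv0
  apply A.indep v
  have h1 : b * ∑ c, aeval t (v c) * A.θ c = 0 := by
    rw [Finset.mul_sum]
    have h2 : ∀ c, b * (aeval t (v c) * A.θ c) = ∑ l, aeval t (v c * n c l) * A.θ l := by
      intro c
      rw [mul_left_comm, h c, Finset.mul_sum]
      refine Finset.sum_congr rfl fun l _ => ?_
      rw [map_mul, mul_assoc]
    rw [Finset.sum_congr rfl fun c _ => h2 c, Finset.sum_comm]
    refine Finset.sum_eq_zero fun l _ => ?_
    rw [← Finset.sum_mul, ← map_sum]
    have h3 : ∑ c, v c * n c l = 0 := by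
      have := congrFun hv l
      simpa [Matrix.vecMul, dotProduct] using this
    rw [h3, map_zero, zero_mul]
  exact (mul_eq_zero.mp h1).resolve_left hb

section Evaluate

variable (A : Apery inf t) (ht : t ∈ regRing inf) (P : Place K F) (hdeg : P.deg = 1)
  (hP : P ≠ inf)
include ht hdeg hP

omit ht hdeg hP in
/-- the values of the basis at a place form a nonzero vector -/
theorem Apery.val_ne_zero : (fun c => valAt P (A.θ c)) ≠ 0 := by
  intro h
  have := congrFun h A.c₀
  simp only [Pi.zero_apply] at this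
  rw [A.θ_c₀, valAt_one] at this
  exact one_ne_zero this

/-- `b(P)` is an eigenvalue of `n(t(P))` -/
theorem IsMulMatrix.eval {b : F} (hb : b ∈ regRing inf)
    {n : Matrix (Fin A.d) (Fin A.d) K[X]} (h : IsMulMatrix A b n) :
    (n.map (Polynomial.eval (valAt P t))).mulVec (fun c => valAt P (A.θ c))
      = valAt P b • (fun c => valAt P (A.θ c)) := by
  funext c
  have h1 := congrArg (valAt P) (h c)
  rw [valAt_mul_reg P hdeg hP hb (A.θ_mem c),
    valAt_sum_reg P hdeg hP _ _ fun l _ => mul_mem (aeval_mem_regRing ht _) (A.θ_mem l)] at h1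
  simp only [Matrix.mulVec, dotProduct, Matrix.map_apply, Pi.smul_apply, smul_eq_mul]
  rw [h1]
  refine Finset.sum_congr rfl fun l _ => ?_
  rw [valAt_mul_reg P hdeg hP (aeval_mem_regRing ht _) (A.θ_mem l),
    valAt_aeval_reg P hdeg hP ht]

/-- at a zero `P` of `b`, the value `t(P)` is a root of the norm polynomial -/
theorem IsMulMatrix.eval_det_eq_zero {b : F} (hb : b ∈ regRing inf)
    {n : Matrix (Fin A.d) (Fin A.d) K[X]} (h : IsMulMatrix A b n) (h0 : valAt P b = 0) :
    n.det.eval (valAt P t) = 0 := by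
  have h1 := h.eval A ht P hdeg hP hb
  rw [h0, zero_smul] at h1
  have h2 : (n.map (Polynomial.eval (valAt P t))).det = 0 :=
    Matrix.exists_mulVec_eq_zero_iff.mp ⟨_, A.val_ne_zero P, h1⟩
  have h3 := RingHom.map_det (Polynomial.evalRingHom (valAt P t)) n
  rw [Polynomial.coe_evalRingHom] at h3
  rw [h3]
  exact h2

end Evaluate

end Fermat.Agent.S17lib.Red
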