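/-
S17lib / Red / Setup  (helper1) — Project G, block RED, part 4.

Coordinates on the finite-dimensional spaces `V inf M = L(M · inf)`, the parameter type
`Pts inf n` of `n`-tuples of places `≠ inf`, the functions `uX x = ∏ (t - t(P_i))` and the values
`αX x i j = a_j(P_i)`, with their elementary properties.
-/
import Mathlib
import Fermat.Agent.S17lib.Red.Norm
import Fermat.Agent.S17lib.RedLin.KeyEquiv
import Fermat.Agent.S18lib.Tame.ZeroPole

set_option autoImplicit false

noncomputable section

namespace Fermat.Agent.S17lib.Red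

open AlgebraicCurve Fermat.Agent.S18lib Fermat.Agent.LSb.Core Fermat.Agent.S17lib.RedLin
  Fermat.Agent.ProgramR Polynomial

variable {K F : Type*} [Field K] [Field F] [Algebra K F]

/-! ### coordinates on a finite-dimensional subspace -/

/-- coordinates on a finite-dimensional subspace `W` of `F`, the coordinate functionals being
extended to all of `F` -/
structure Coords (W : Submodule K F) where
  r : ℕ
  b : Fin r → F
  lam : Fin r → F →ₗ[K] K
  mem : ∀ j, b j ∈ W
  repr : ∀ f ∈ W, f = ∑ j, lam j f • b j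
  lam_sum : ∀ (y : Fin r → K) (l : Fin r), lam l (∑ j, y j • b j) = y l

theorem Coords.nonempty (W : Submodule K F) [FiniteDimensional K W] : Nonempty (Coords W) := by
  classical
  set B := Module.finBasis K W with hB
  obtain ⟨π, hπ⟩ := LinearMap.exists_leftInverse_of_injective W.subtype (by simp)
  have hπ' : ∀ w : W, π (w : F) = w := fun w => by
    have := LinearMap.congr_fun hπ w
    simpa using this
  refine ⟨⟨Module.finrank K W, fun j => (B j : F), fun l => (B.coord l).comp π,
    fun j => (B j).2, fun f hf => ?_, fun y l => ?_⟩⟩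
  · have h1 := B.sum_repr ⟨f, hf⟩
    have h2 := congrArg (Subtype.val) h1
    simp only [AddSubmonoidClass.coe_finsetSum, Submodule.coe_smul] at h2
    have h3 : ∀ j, ((B.coord j).comp π) f = B.repr ⟨f, hf⟩ j := fun j => by
      simp only [LinearMap.comp_apply, Module.Basis.coord_apply]
      have := hπ' ⟨f, hf⟩
      simp only at this
      rw [this]
    simp only [h3]
    exact h2.symm
  · simp only [LinearMap.comp_apply, map_sum, map_smul, hπ', Module.Basis.coord_apply,
      Module.Basis.repr_self, Finsupp.single_apply, smul_eq_mul]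
    simp

theorem Coords.eq_zero_of_lam {W : Submodule K F} (C : Coords W) {f : F} (hf : f ∈ W)
    (h : ∀ l, C.lam l f = 0) : f = 0 := by
  rw [C.repr f hf]
  exact Finset.sum_eq_zero fun j _ => by rw [h j, zero_smul]

theorem Coords.sum_mem {W : Submodule K F} (C : Coords W) (y : Fin C.r → K) :
    ∑ j, y j • C.b j ∈ W :=
  Submodule.sum_mem _ fun j _ => Submodule.smul_mem _ _ (C.mem j)

theorem Coords.ext_of_sum_eq {W : Submodule K F} (C : Coords W) {y y' : Fin C.r → K}
    (h : ∑ j, y j • C.b j = ∑ j, y' j • C.b j) : y = y' := by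
  funext l
  rw [← C.lam_sum y l, ← C.lam_sum y' l, h]

/-! ### the spaces `L(M · inf)` -/

/-- the space `L(M · inf)` -/
def V (inf : Place K F) (M : ℤ) : Submodule K F := riemannRochSpace (Finsupp.single inf M)

theorem V_mul {inf : Place K F} {M₁ M₂ : ℤ} {f h : F} (hf : f ∈ V inf M₁) (hh : h ∈ V inf M₂) :
    f * h ∈ V inf (M₁ + M₂) := by
  unfold V at *
  rw [Finsupp.single_add]
  exact Cech.mul_mem_rr hf hh

theorem V_mono {inf : Place K F} {M₁ M₂ : ℤ} (h : M₁ ≤ M₂) : V inf M₁ ≤ V inf M₂ := by
  classical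
  apply Cech.rr_mono
  intro v
  rw [Finsupp.single_apply, Finsupp.single_apply]
  split_ifs
  · exact h
  · exact le_rfl

theorem const_mem_V {inf : Place K F} {M : ℤ} (hM : 0 ≤ M) (c : K) :
    algebraMap K F c ∈ V inf M := by
  classical
  apply Cech.const_mem_rr
  intro v
  rw [Finsupp.single_apply]
  split_ifs
  · exact hM
  · exact le_rfl

theorem mem_regRing_of_mem_V {inf : Place K F} {M : ℤ} {f : F} (hf : f ∈ V inf M) :
    f ∈ regRing inf := by
  classical
  intro P hP
  refine mem_of_mem_rr (E := Finsupp.single inf M) ?_ hf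
  rw [Finsupp.single_apply, if_neg (Ne.symm hP)]

theorem prod_mem_V {inf : Place K F} {M : ℤ} {κ : Type*} (s : Finset κ) (f : κ → F)
    (hf : ∀ k ∈ s, f k ∈ V inf M) : ∏ k ∈ s, f k ∈ V inf (s.card * M) := by
  classical
  induction s using Finset.induction with
  | empty =>
    simp only [Finset.prod_empty, Finset.card_empty, Nat.cast_zero, zero_mul]
    have := const_mem_V (inf := inf) (le_refl (0 : ℤ)) (1 : K)
    rwa [map_one] at this
  | insert a s ha ih =>
    rw [Finset.prod_insert ha, Finset.card_insert_of_notMem ha]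
    have h1 := hf a (Finset.mem_insert_self a s)
    have h2 := ih fun k hk => hf k (Finset.mem_insert_of_mem hk)
    have := V_mul h1 h2
    convert this using 2
    push_cast
    ring


/-! ### the parameter type and the basic functions of the parameter -/

/-- `n`-tuples of places different from `inf` -/
def Pts (inf : Place K F) (n : ℕ) : Type _ := {x : Fin n → Place K F // ∀ i, x i ≠ inf}

variable {inf : Place K F} {n : ℕ}

/-- the coordinates of the parameter: the values of `t` at the points -/
def zc (t : F) (x : Pts inf n) (i : Fin n) : K := valAt (x.1 i) t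

/-- the function `∏ i, (t - t(P_i))` -/
def uX (t : F) (x : Pts inf n) : F := ∏ i, (t - algebraMap K F (zc t x i))

/-- the values `a_j(P_i)` -/
def αX {ι : Type*} (a : ι → F) (x : Pts inf n) (i : Fin n) (j : ι) : K := valAt (x.1 i) (a j)

theorem hasVal_valAt {P : Place K F} (hdeg : P.deg = 1) {f : F} (hf : f ∈ P.toValuationSubring) :
    HasVal P f (valAt P f) := by
  have h := vanishAt_sub_valAt P hdeg hf
  rw [vanishAt_iff] at h
  rcases h with h | h
  · exact Or.inl (sub_eq_zero.mp h)
  · exact Or.inr (by omega)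

theorem hasVal_αX (hdeg : ∀ P : Place K F, P.deg = 1) {ι : Type*} (a : ι → F)
    (ha : ∀ j, a j ∈ regRing inf) (x : Pts inf n) (i : Fin n) (j : ι) :
    HasVal (x.1 i) (a j) (αX a x i j) :=
  hasVal_valAt (hdeg _) (ha j _ (x.2 i))

section tfun

variable {t : F} (ht : t ∈ regRing inf) {dt : ℕ} (hpole : inf.ord t = -(dt : ℤ)) (hdt : 0 < dt)

include hpole hdt in
theorem t_sub_ne_zero (c : K) : t - algebraMap K F c ≠ 0 := by
  intro h
  have h1 : t = algebraMap K F c := sub_eq_zero.mp h
  rw [h1, Cech.ord_const] at hpole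
  omega

include hpole hdt in
theorem uX_ne_zero (x : Pts inf n) : uX t x ≠ 0 :=
  Finset.prod_ne_zero_iff.mpr fun _ _ => t_sub_ne_zero hpole hdt _

include hpole hdt in
theorem uX_ord_inf (x : Pts inf n) : inf.ord (uX t x) = -((n : ℤ) * dt) := by
  unfold uX
  rw [ord_prod_eq inf _ _ fun i _ => t_sub_ne_zero hpole hdt _]
  have : ∀ i : Fin n, inf.ord (t - algebraMap K F (zc t x i)) = -(dt : ℤ) := fun i => by
    rw [Tame.ord_sub_const_of_neg inf _ (by omega), hpole]
  simp only [this, Finset.sum_const, Finset.card_univ, Fintype.card_fin, nsmul_eq_mul]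
  ring

include ht hpole hdt in
theorem uX_ord_ge (hdeg : ∀ P : Place K F, P.deg = 1) (x : Pts inf n) {Q : Place K F}
    (hQ : Q ≠ inf) : ptsDiv x.1 Q ≤ Q.ord (uX t x) := by
  classical
  unfold uX
  rw [ord_prod_eq Q _ _ fun i _ => t_sub_ne_zero hpole hdt _, ptsDiv_apply]
  refine Finset.sum_le_sum fun i _ => ?_
  have hne := t_sub_ne_zero (K := K) hpole hdt (zc t x i)
  rw [Finsupp.single_apply]
  split_ifs with h
  · subst h
    have h1 := vanishAt_sub_valAt (x.1 i) (hdeg _) (ht _ (x.2 i))
    rw [vanishAt_iff] at h1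
    exact h1.resolve_left hne
  · exact FF.ord_nonneg_of_mem Q (sub_mem (ht Q hQ) (Q.algebraMap_mem' _))

include ht hpole in
theorem t_mem_V : t ∈ V inf (dt : ℤ) := by
  classical
  unfold V
  rw [Cech.mem_rr_iff]
  intro v
  right
  rw [Finsupp.single_apply]
  split_ifs with h
  · subst h
    omega
  · rw [neg_zero]
    exact FF.ord_nonneg_of_mem v (ht v (Ne.symm h))

include ht hpole in
theorem uX_mem_V (x : Pts inf n) : uX t x ∈ V inf ((n : ℤ) * dt) := by
  have h := prod_mem_V (inf := inf) (M := (dt : ℤ)) (Finset.univ : Finset (Fin n))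
    (fun i => t - algebraMap K F (zc t x i))
    fun i _ => Submodule.sub_mem _ (t_mem_V ht hpole) (const_mem_V (Int.natCast_nonneg dt) _)
  simpa [uX] using h

end tfun

/-- the functions `gk` lie in `L(n N₁ · inf)` -/
theorem gk_mem_V {ι : Type*} {N₁ : ℕ} (a : ι → F) (ha : ∀ j, a j ∈ V inf (N₁ : ℤ))
    (α : Fin n → ι → K) (k : Fin n → ι) : gk a α k ∈ V inf ((n : ℤ) * N₁) := by
  have h := prod_mem_V (inf := inf) (M := (N₁ : ℤ)) (Finset.univ : Finset (Fin n))
    (fun i => a (k i) - algebraMap K F (α i (k i)))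
    fun i _ => Submodule.sub_mem _ (ha _) (const_mem_V (Int.natCast_nonneg N₁) _)
  simpa [gk] using h

end Fermat.Agent.S17lib.Red
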