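/-
S17lib / Red / System  (helper1) — Project G, block RED, part 5.

The linear system `F₁ · g_k(x) = u(x) · G_k` (`k : Fin n → Fin ra`) in the unknowns
`F₁ ∈ W'`, `G_k ∈ W''`, written as a matrix `Mx x` in coordinates; its kernel; and the fact that
all entries of `Mx x` are height-bounded functions of the parameter `x`.
-/
import Mathlib
import Fermat.Agent.S17lib.Red.HB
import Fermat.Agent.S17lib.Red.Setup

set_option autoImplicit false

noncomputable section

namespace Fermat.Agent.S17lib.Red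

open AlgebraicCurve Fermat.Agent.S18lib Fermat.Agent.LSb.Core Fermat.Agent.S17lib.RedLin
  Fermat.Agent.S17lib.HT Polynomial

variable {F : Type*} [Field F] [Algebra Qb F] {inf : Place Qb F} {n : ℕ}

section Sys

variable (t : F) {ra : ℕ} (a : Fin ra → F) {W' W'' WL : Submodule Qb F}
  (C' : Coords W') (C'' : Coords W'') (CL : Coords WL)

/-- the functions `g_k(x) = ∏ i, (a (k i) - a (k i) (P_i))` -/
def gX (x : Pts inf n) (k : Fin n → Fin ra) : F := gk a (αX a x) k

/-- the unknown `F₁` from its coordinates -/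
def F1 (y : Fin C'.r ⊕ ((Fin n → Fin ra) × Fin C''.r) → Qb) : F :=
  ∑ j, y (Sum.inl j) • C'.b j

/-- the unknowns `G_k` from their coordinates -/
def G2 (y : Fin C'.r ⊕ ((Fin n → Fin ra) × Fin C''.r) → Qb) (k : Fin n → Fin ra) : F :=
  ∑ j, y (Sum.inr (k, j)) • C''.b j

/-- the matrix of the linear system -/
def Mx (x : Pts inf n) :
    Matrix ((Fin n → Fin ra) × Fin CL.r) (Fin C'.r ⊕ ((Fin n → Fin ra) × Fin C''.r)) Qb :=
  fun kl c => Sum.elim (fun j => CL.lam kl.2 (C'.b j * gX a x kl.1))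
    (fun kj => if kj.1 = kl.1 then -CL.lam kl.2 (uX t x * C''.b kj.2) else 0) c

theorem Mx_mulVec (x : Pts inf n) (y : Fin C'.r ⊕ ((Fin n → Fin ra) × Fin C''.r) → Qb)
    (kl : (Fin n → Fin ra) × Fin CL.r) :
    (Mx t a C' C'' CL x).mulVec y kl
      = CL.lam kl.2 (F1 C' C'' y * gX a x kl.1 - uX t x * G2 C' C'' y kl.1) := by
  classical
  simp only [Matrix.mulVec, dotProduct, Mx, Fintype.sum_sum_type, Sum.elim_inl, Sum.elim_inr,
    Fintype.sum_prod_type]
  have h1 : ∑ j, CL.lam kl.2 (C'.b j * gX a x kl.1) * y (Sum.inl j)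
      = CL.lam kl.2 (F1 C' C'' y * gX a x kl.1) := by
    unfold F1
    rw [Finset.sum_mul, map_sum]
    refine Finset.sum_congr rfl fun j _ => ?_
    rw [smul_mul_assoc, map_smul, smul_eq_mul, mul_comm]
  have h2 : ∑ k', ∑ j, (if k' = kl.1 then -CL.lam kl.2 (uX t x * C''.b j) else 0)
        * y (Sum.inr (k', j))
      = -CL.lam kl.2 (uX t x * G2 C' C'' y kl.1) := by
    rw [Finset.sum_eq_single kl.1]
    · simp only [if_true]
      unfold G2
      rw [Finset.mul_sum, map_sum, ← Finset.sum_neg_distrib]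
      refine Finset.sum_congr rfl fun j _ => ?_
      rw [mul_smul_comm, map_smul, smul_eq_mul]
      ring
    · intro k' _ hk'
      simp [hk']
    · intro h
      exact absurd (Finset.mem_univ _) h
  rw [h1, h2, map_sub]
  ring

theorem Mx_mulVec_eq_zero_iff (x : Pts inf n)
    (y : Fin C'.r ⊕ ((Fin n → Fin ra) × Fin C''.r) → Qb)
    (hmem : ∀ k, F1 C' C'' y * gX a x k - uX t x * G2 C' C'' y k ∈ WL) :
    (Mx t a C' C'' CL x).mulVec y = 0 ↔
      ∀ k, F1 C' C'' y * gX a x k = uX t x * G2 C' C'' y k := by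
  constructor
  · intro h k
    apply sub_eq_zero.mp
    apply CL.eq_zero_of_lam (hmem k)
    intro l
    have := congrFun h (k, l)
    rwa [Mx_mulVec] at this
  · intro h
    funext kl
    rw [Mx_mulVec, h kl.1, sub_self, map_zero]
    rfl

/-- **the kernel of the system is a line** when `L(D_x - e·inf)` is a line -/
theorem kernel_line (x : Pts inf n) (L : Submodule Qb F)
    (hKE : ∀ φ : F, φ ∈ L ↔ uX t x * φ ∈ W' ∧ ∀ k, φ * gX a x k ∈ W'')
    (hu : uX t x ≠ 0)
    (hmem : ∀ y k, F1 C' C'' y * gX a x k - uX t x * G2 C' C'' y k ∈ WL)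
    (φ₀ : F) (hφ₀ : φ₀ ≠ 0) (hφ₀mem : φ₀ ∈ L) (hgen : ∀ φ ∈ L, ∃ c : Qb, φ = c • φ₀) :
    ∃ y₀ : Fin C'.r ⊕ ((Fin n → Fin ra) × Fin C''.r) → Qb, y₀ ≠ 0 ∧
      F1 C' C'' y₀ = uX t x * φ₀ ∧ (Mx t a C' C'' CL x).mulVec y₀ = 0 ∧
      ∀ z, (Mx t a C' C'' CL x).mulVec z = 0 → ∃ μ : Qb, z = μ • y₀ := by
  classical
  obtain ⟨h1, h2⟩ := (hKE φ₀).mp hφ₀mem
  set y₀ : Fin C'.r ⊕ ((Fin n → Fin ra) × Fin C''.r) → Qb :=
    Sum.elim (fun j => C'.lam j (uX t x * φ₀)) (fun kj => C''.lam kj.2 (φ₀ * gX a x kj.1))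
    with hy₀
  have hF1 : F1 C' C'' y₀ = uX t x * φ₀ := by
    unfold F1
    simp only [hy₀, Sum.elim_inl]
    exact (C'.repr _ h1).symm
  have hG2 : ∀ k, G2 C' C'' y₀ k = φ₀ * gX a x k := by
    intro k
    unfold G2
    simp only [hy₀, Sum.elim_inr]
    exact (C''.repr _ (h2 k)).symm
  have hy₀0 : y₀ ≠ 0 := by
    intro h
    have : F1 C' C'' y₀ = 0 := by
      rw [h]; unfold F1; simp
    rw [hF1] at this
    exact mul_ne_zero hu hφ₀ this
  refine ⟨y₀, hy₀0, hF1, ?_, fun z hz => ?_⟩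
  · rw [Mx_mulVec_eq_zero_iff t a C' C'' CL x y₀ (hmem y₀)]
    intro k
    rw [hF1, hG2]
    ring
  · rw [Mx_mulVec_eq_zero_iff t a C' C'' CL x z (hmem z)] at hz
    set φ : F := F1 C' C'' z * (uX t x)⁻¹ with hφ
    have e1 : uX t x * φ = F1 C' C'' z := by
      rw [hφ, mul_comm, mul_assoc, inv_mul_cancel₀ hu, mul_one]
    have e2 : ∀ k, φ * gX a x k = G2 C' C'' z k := by
      intro k
      rw [hφ, mul_right_comm, hz k, mul_right_comm, mul_inv_cancel₀ hu, one_mul]
    have hφL : φ ∈ L := by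
      rw [hKE]
      refine ⟨?_, fun k => ?_⟩
      · rw [e1]; exact C'.sum_mem _
      · rw [e2]; exact C''.sum_mem _
    obtain ⟨c, hc⟩ := hgen φ hφL
    refine ⟨c, ?_⟩
    have hz1 : F1 C' C'' z = F1 C' C'' (c • y₀) := by
      rw [← e1, hc, mul_smul_comm, ← hF1]
      unfold F1
      rw [Finset.smul_sum]
      exact Finset.sum_congr rfl fun j _ => by rw [Pi.smul_apply, smul_eq_mul, mul_smul]
    have hz2 : ∀ k, G2 C' C'' z k = G2 C' C'' (c • y₀) k := by
      intro k
      rw [← e2, hc, smul_mul_assoc, ← hG2]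
      unfold G2
      rw [Finset.smul_sum]
      exact Finset.sum_congr rfl fun j _ => by rw [Pi.smul_apply, smul_eq_mul, mul_smul]
    funext c'
    rcases c' with j | ⟨k, j⟩
    · have := C'.ext_of_sum_eq (y := fun j => z (Sum.inl j))
        (y' := fun j => (c • y₀) (Sum.inl j)) hz1
      exact congrFun this j
    · have := C''.ext_of_sum_eq (y := fun j => z (Sum.inr (k, j)))
        (y' := fun j => (c • y₀) (Sum.inr (k, j))) (hz2 k)
      exact congrFun this j

end Sys


/-! ### the entries are height-bounded -/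

section HBentries

variable {t : F} (ht : t ∈ regRing inf) (A : Apery inf t) (hdeg : ∀ P : Place Qb F, P.deg = 1)
  {ra : ℕ} (a : Fin ra → F) (ha : ∀ j, a j ∈ regRing inf)

include ht A hdeg ha in
/-- the values `a_j(P_i)` are height-bounded in the values `t(P_i)` -/
theorem hb_αX (i : Fin n) (j : Fin ra) :
    HB (zc t : Pts inf n → Fin n → Qb) (fun x => αX a x i j) := by
  obtain ⟨nj, hnj⟩ := exists_isMulMatrix A (ha j)
  refine HB.eigen (z := (zc t : Pts inf n → Fin n → Qb))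
    (fun x => nj.map (Polynomial.eval (zc t x i))) (fun c l => ?_) _ fun x => ?_
  · simp only [Matrix.map_apply]
    exact HB.polyEval (nj c l) (HB.coord i)
  · exact ⟨fun c => valAt (x.1 i) (A.θ c), A.val_ne_zero (x.1 i),
      hnj.eval A ht (x.1 i) (hdeg _) (x.2 i) (ha j)⟩

/-- `u(x)` is height-bounded -/
theorem hba_uX : HBA (zc t : Pts inf n → Fin n → Qb) (fun x => uX t x) := by
  unfold uX
  exact HBA.prod Finset.univ _ fun i _ => (HBA.const t).sub (HBA.ofHB (HB.coord i))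

include ht A hdeg ha in
/-- `g_k(x)` is height-bounded -/
theorem hba_gX (k : Fin n → Fin ra) :
    HBA (zc t : Pts inf n → Fin n → Qb) (fun x => gX a x k) := by
  unfold gX gk
  exact HBA.prod Finset.univ _ fun i _ =>
    (HBA.const (a (k i))).sub (HBA.ofHB (hb_αX ht A hdeg a ha i (k i)))

variable {W' W'' WL : Submodule Qb F} (C' : Coords W') (C'' : Coords W'') (CL : Coords WL)

include ht A hdeg ha in
/-- the entries of the matrix of the system are height-bounded -/
theorem hb_Mx (kl : (Fin n → Fin ra) × Fin CL.r)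
    (c : Fin C'.r ⊕ ((Fin n → Fin ra) × Fin C''.r)) :
    HB (zc t : Pts inf n → Fin n → Qb) (fun x => Mx t a C' C'' CL x kl c) := by
  rcases c with j | kj
  · simp only [Mx, Sum.elim_inl]
    exact ((HBA.const (C'.b j)).mul (hba_gX ht A hdeg a ha kl.1)).apply (CL.lam kl.2)
  · simp only [Mx, Sum.elim_inr]
    by_cases h : kj.1 = kl.1
    · simp only [h, if_true]
      exact ((hba_uX.mul (HBA.const (C''.b kj.2))).apply (CL.lam kl.2)).neg
    · simp only [h, if_false]
      exact HB.zero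

end HBentries

end Fermat.Agent.S17lib.Red
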