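/-
S17lib / Red / Core  (helper1) — Project G, block RED, part 6: the core estimate.

For fixed `n` and `e`: if `D_x = ∑ P_i` (`x = (P_1, …, P_n)`, `P_i ≠ inf`) and `L(D_x - e·inf)` is
a line generated by `φ₀`, then at every zero `Q ≠ inf` of `u(x) φ₀`
  `h1 (t(Q)) ≤ A · ∑ i, h1 (t(P_i)) + B`
with `A, B` depending only on `(n, e)`.
-/
import Mathlib
import Fermat.Agent.S17lib.Red.System
import Fermat.Agent.S17lib.RedLin.Cramer
import Fermat.Agent.S17lib.RedGeom.Apery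

set_option autoImplicit false

noncomputable section

namespace Fermat.Agent.S17lib.Red

open AlgebraicCurve Fermat.Agent.S18lib Fermat.Agent.LSb.Core Fermat.Agent.S17lib.RedLin
  Fermat.Agent.S17lib.HT Fermat.Agent.ProgramR Polynomial

variable {F : Type*} [Field F] [Algebra Qb F]

omit [Algebra Qb F] in
theorem Coords.span_eq {K : Type*} [Field K] [Algebra K F] {W : Submodule K F} (C : Coords W) :
    Submodule.span K (Set.range C.b) = W := by
  apply le_antisymm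
  · rw [Submodule.span_le]
    rintro _ ⟨j, rfl⟩
    exact C.mem j
  · intro f hf
    rw [C.repr f hf]
    exact Submodule.sum_mem _ fun j _ =>
      Submodule.smul_mem _ _ (Submodule.subset_span ⟨j, rfl⟩)

/-- an Apéry basis exists (helper2's `RedGeom.exists_apery_basis`) -/
theorem nonempty_apery {g : ℕ} (hF : IsCurveOfGenus Qb F g) (inf : Place Qb F) (t : F)
    (hreg : ∀ P : Place Qb F, P ≠ inf → 0 ≤ P.ord t) (hpole : inf.ord t < 0) :
    Nonempty (Apery inf t) := by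
  obtain ⟨d, θ, ⟨c₀, hc₀⟩, hθ, hind, hspan⟩ := RedGeom.exists_apery_basis hF inf t hreg hpole
  exact ⟨⟨d, θ, c₀, hc₀, fun c => mem_regRing_iff_ord.mpr (hθ c), hind,
    fun f hf => hspan f (mem_regRing_iff_ord.mp hf)⟩⟩

set_option maxHeartbeats 1600000 in
/-- **the core estimate** for fixed `(n, e)` -/
theorem red_ne {g : ℕ} (hF : IsCurveOfGenus Qb F g) (inf : Place Qb F) (t : F)
    (ht : t ∈ regRing inf) {dt : ℕ} (hpole : inf.ord t = -(dt : ℤ)) (hdt : 0 < dt)
    (n : ℕ) (e : ℤ) :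
    ∃ A B : ℝ, 0 ≤ A ∧ 0 ≤ B ∧ ∀ (x : Pts inf n) (φ₀ : F) (Q : Place Qb F), Q ≠ inf →
      φ₀ ≠ 0 → φ₀ ∈ riemannRochSpace (ptsDiv x.1 - Finsupp.single inf e) →
      (∀ φ ∈ riemannRochSpace (ptsDiv x.1 - Finsupp.single inf e), ∃ c : Qb, φ = c • φ₀) →
      0 < Q.ord (uX t x * φ₀) →
      h1 (valAt Q t) ≤ A * ∑ i, h1 (zc t x i) + B := by
  classical
  have hdeg := hF.deg_eq_one
  have hreg : ∀ P : Place Qb F, P ≠ inf → 0 ≤ P.ord t := mem_regRing_iff_ord.mp ht
  obtain ⟨Ap⟩ := nonempty_apery hF inf t hreg (by omega)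
  -- the family `a`
  set N₁ : ℕ := 2 * g + 1 with hN₁
  have : FiniteDimensional Qb (V inf (N₁ : ℤ)) := hF.finiteDimensional _
  obtain ⟨Ca⟩ := Coords.nonempty (V inf (N₁ : ℤ))
  have haV : ∀ j, Ca.b j ∈ V inf (N₁ : ℤ) := Ca.mem
  have haR : ∀ j, Ca.b j ∈ regRing inf := fun j => mem_regRing_of_mem_V (haV j)
  have hspan : Submodule.span Qb (Set.range Ca.b)
      = riemannRochSpace (Finsupp.single inf (N₁ : ℤ)) := Ca.span_eq
  -- coordinates on the three spaces
  have : FiniteDimensional Qb (V inf ((n : ℤ) * dt - e)) := hF.finiteDimensional _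
  have : FiniteDimensional Qb (V inf ((n : ℤ) * N₁ - e)) := hF.finiteDimensional _
  have : FiniteDimensional Qb (V inf ((n : ℤ) * dt + (n : ℤ) * N₁ - e)) := hF.finiteDimensional _
  obtain ⟨C'⟩ := Coords.nonempty (V inf ((n : ℤ) * dt - e))
  obtain ⟨C''⟩ := Coords.nonempty (V inf ((n : ℤ) * N₁ - e))
  obtain ⟨CL⟩ := Coords.nonempty (V inf ((n : ℤ) * dt + (n : ℤ) * N₁ - e))
  -- multiplication matrices of the basis of `W'`
  choose nb hnb using fun j => exists_isMulMatrix Ap (mem_regRing_of_mem_V (C'.mem j))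
  -- the system at a valid parameter has a kernel line
  have hmemL : ∀ (x : Pts inf n) (y : Fin C'.r ⊕ ((Fin n → Fin Ca.r) × Fin C''.r) → Qb)
      (k : Fin n → Fin Ca.r),
      F1 C' C'' y * gX Ca.b x k - uX t x * G2 C' C'' y k
        ∈ V inf ((n : ℤ) * dt + (n : ℤ) * N₁ - e) := by
    intro x y k
    refine Submodule.sub_mem _ ?_ ?_
    · have h1 : F1 C' C'' y ∈ V inf ((n : ℤ) * dt - e) := C'.sum_mem _
      have h2 : gX Ca.b x k ∈ V inf ((n : ℤ) * N₁) := gk_mem_V Ca.b haV _ k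
      exact V_mono (le_of_eq (by ring)) (V_mul h1 h2)
    · have h1 : uX t x ∈ V inf ((n : ℤ) * dt) := uX_mem_V ht hpole x
      have h2 : G2 C' C'' y k ∈ V inf ((n : ℤ) * N₁ - e) := C''.sum_mem _
      exact V_mono (le_of_eq (by ring)) (V_mul h1 h2)
  have hKE : ∀ (x : Pts inf n) (φ : F),
      φ ∈ riemannRochSpace (ptsDiv x.1 - Finsupp.single inf e) ↔
        uX t x * φ ∈ V inf ((n : ℤ) * dt - e) ∧
          ∀ k, φ * gX Ca.b x k ∈ V inf ((n : ℤ) * N₁ - e) := by
    intro x φ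
    have h := key_equiv hF inf (le_refl N₁) Ca.b hspan x.1 x.2 (αX Ca.b x)
      (hasVal_αX hdeg Ca.b haR x) (uX_ne_zero hpole hdt x) (fun Q hQ => uX_ord_ge ht hpole hdt hdeg x hQ)
      e φ
    rw [uX_ord_inf hpole hdt x, neg_neg] at h
    exact h
  have hline : ∀ (x : Pts inf n) (φ₀ : F), φ₀ ≠ 0 →
      φ₀ ∈ riemannRochSpace (ptsDiv x.1 - Finsupp.single inf e) →
      (∀ φ ∈ riemannRochSpace (ptsDiv x.1 - Finsupp.single inf e), ∃ c : Qb, φ = c • φ₀) →
      ∃ y₀ : Fin C'.r ⊕ ((Fin n → Fin Ca.r) × Fin C''.r) → Qb, y₀ ≠ 0 ∧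
        F1 C' C'' y₀ = uX t x * φ₀ ∧ (Mx t Ca.b C' C'' CL x).mulVec y₀ = 0 ∧
        ∀ z, (Mx t Ca.b C' C'' CL x).mulVec z = 0 → ∃ μ : Qb, z = μ • y₀ :=
    fun x φ₀ h0 hm hg => kernel_line t Ca.b C' C'' CL x _ (hKE x) (uX_ne_zero hpole hdt x)
      (hmemL x) φ₀ h0 hm hg
  -- the number of unknowns
  by_cases hcard : Fintype.card (Fin C'.r ⊕ ((Fin n → Fin Ca.r) × Fin C''.r)) = 0
  · refine ⟨0, 0, le_rfl, le_rfl, fun x φ₀ Q _ h0 hm hg _ => ?_⟩
    exfalso
    obtain ⟨y₀, hy₀, -⟩ := hline x φ₀ h0 hm hg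
    have : IsEmpty (Fin C'.r ⊕ ((Fin n → Fin Ca.r) × Fin C''.r)) :=
      Fintype.card_eq_zero_iff.mp hcard
    exact hy₀ (Subsingleton.elim _ _)
  obtain ⟨m, hm⟩ : ∃ m, Fintype.card (Fin C'.r ⊕ ((Fin n → Fin Ca.r) × Fin C''.r)) = m + 1 :=
    ⟨_, (Nat.succ_pred_eq_of_ne_zero hcard).symm⟩
  set eq : (Fin C'.r ⊕ ((Fin n → Fin Ca.r) × Fin C''.r)) ≃ Fin (m + 1) :=
    Fintype.equivFinOfCardEq hm with heq
  -- the minor vectors
  set xi : (Fin m → (Fin n → Fin Ca.r) × Fin CL.r) → Pts inf n →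
      (Fin C'.r ⊕ ((Fin n → Fin Ca.r) × Fin C''.r)) → Qb := fun er x c =>
    (-1) ^ ((eq c : Fin (m + 1)) : ℕ) *
      ((Mx t Ca.b C' C'' CL x).submatrix er (fun i => eq.symm ((eq c).succAbove i))).det with hxi
  have hxiHB : ∀ er c, HB (zc t : Pts inf n → Fin n → Qb) (fun x => xi er x c) := by
    intro er c
    simp only [hxi]
    exact (HB.det (fun x => (Mx t Ca.b C' C'' CL x).submatrix er
      (fun i => eq.symm ((eq c).succAbove i))) fun i j =>
        hb_Mx ht Ap hdeg Ca.b haR C' C'' CL (er i) _).const_mul _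
  -- the norm polynomials
  set nn : (Fin m → (Fin n → Fin Ca.r) × Fin CL.r) → Pts inf n →
      Matrix (Fin Ap.d) (Fin Ap.d) Qb[X] := fun er x =>
    Matrix.of fun c l => ∑ j, C (xi er x (Sum.inl j)) * nb j c l with hnn
  have hnnHBA : ∀ er, HBA (zc t : Pts inf n → Fin n → Qb) (fun x => (nn er x).det) := by
    intro er
    refine HBA.det _ fun c l => ?_
    simp only [hnn, Matrix.of_apply]
    refine HBA.sum Finset.univ _ fun j _ => ?_
    refine ((HBA.ofHB (𝔸 := Qb[X]) (hxiHB er (Sum.inl j))).mul (HBA.const (nb j c l))).congr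
      fun x => ?_
    rw [Polynomial.C_eq_algebraMap]
  choose AA BB hAA hBB hroot using fun er => HBA.root_bound _ (hnnHBA er)
  refine ⟨∑ er, AA er, ∑ er, BB er, Finset.sum_nonneg fun er _ => hAA er,
    Finset.sum_nonneg fun er _ => hBB er, fun x φ₀ Q hQ h0 hmem hgen hord => ?_⟩
  obtain ⟨y₀, hy₀, hF1, hker0, hker⟩ := hline x φ₀ h0 hmem hgen
  -- the minor vector
  have hmul : ∀ v : Fin (m + 1) → Qb,
      ((Mx t Ca.b C' C'' CL x).submatrix id eq.symm).mulVec v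
        = (Mx t Ca.b C' C'' CL x).mulVec (v ∘ eq) := fun v => by
    have := Matrix.submatrix_mulVec_equiv (Mx t Ca.b C' C'' CL x) v id eq.symm
    simpa using this
  obtain ⟨er, lam, hlam, hminor⟩ := exists_minor_vector
    ((Mx t Ca.b C' C'' CL x).submatrix id eq.symm) (y₀ ∘ eq.symm)
    (fun h => hy₀ (by
      funext c
      have := congrFun h (eq c)
      simpa using this))
    (by
      rw [hmul]
      have : (y₀ ∘ eq.symm) ∘ eq = y₀ := by
        funext c; simp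
      rw [this]; exact hker0)
    (fun z hz => by
      rw [hmul] at hz
      obtain ⟨μ, hμ⟩ := hker _ hz
      refine ⟨μ, ?_⟩
      funext j
      have := congrFun hμ (eq.symm j)
      simpa using this)
  have hxi_eq : ∀ c, xi er x c = lam * y₀ c := by
    intro c
    have := hminor (eq c)
    simp only [Function.comp_apply, Equiv.symm_apply_apply] at this
    rw [this]
    rfl
  -- the function `F₁'`
  set F1' : F := ∑ j, xi er x (Sum.inl j) • C'.b j with hF1'
  have hF1'eq : F1' = lam • (uX t x * φ₀) := by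
    rw [← hF1, hF1']
    unfold F1
    rw [Finset.smul_sum]
    exact Finset.sum_congr rfl fun j _ => by rw [hxi_eq, mul_smul]
  have hu0 : uX t x ≠ 0 := uX_ne_zero hpole hdt x
  have hF1'ne : F1' ≠ 0 := by
    rw [hF1'eq]
    exact smul_ne_zero hlam (mul_ne_zero hu0 h0)
  have huφmem : uX t x * φ₀ ∈ V inf ((n : ℤ) * dt - e) := ((hKE x φ₀).mp hmem).1
  have huφreg : uX t x * φ₀ ∈ regRing inf := mem_regRing_of_mem_V huφmem
  have hF1'reg : F1' ∈ regRing inf := by
    rw [hF1'eq]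
    exact Subalgebra.smul_mem _ huφreg _
  have hmm : IsMulMatrix Ap F1' (nn er x) :=
    IsMulMatrix.sum Ap C'.b nb hnb (fun j => xi er x (Sum.inl j))
  have hdet : (nn er x).det ≠ 0 := hmm.det_ne_zero Ap hF1'ne
  have hval0 : valAt Q F1' = 0 := by
    rw [hF1'eq, valAt_smul Q (hdeg Q) lam (huφreg Q hQ)]
    have : valAt Q (uX t x * φ₀) = 0 := by
      rw [valAt_eq_zero_iff Q (hdeg Q) (huφreg Q hQ), vanishAt_iff]
      right
      omega
    rw [this, mul_zero]
  have hev : (nn er x).det.eval (valAt Q t) = 0 :=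
    hmm.eval_det_eq_zero Ap ht Q (hdeg Q) hQ hF1'reg hval0
  have hfin := hroot er x (valAt Q t) hdet hev
  have hS : 0 ≤ ∑ i, h1 (zc t x i) := Finset.sum_nonneg fun i _ => h1_nonneg _
  have hA1 : AA er ≤ ∑ er, AA er :=
    Finset.single_le_sum (f := AA) (fun er _ => hAA er) (Finset.mem_univ er)
  have hB1 : BB er ≤ ∑ er, BB er :=
    Finset.single_le_sum (f := BB) (fun er _ => hBB er) (Finset.mem_univ er)
  calc h1 (valAt Q t) ≤ AA er * ∑ i, h1 (zc t x i) + BB er := hfin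
    _ ≤ (∑ er, AA er) * ∑ i, h1 (zc t x i) + ∑ er, BB er := by
      have := mul_le_mul_of_nonneg_right hA1 hS
      linarith

end Fermat.Agent.S17lib.Red
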