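/-
S17lib / Red / Stmt  (helper1) — Project G, block RED: the precise statement.

Setting: `F / Qb` a function field with `IsCurveOfGenus Qb F g` (all places rational, Riemann's
theorem), `inf` a place, `t : F` a function whose only pole is `inf`.  Heights of places are
`ptH t P = h1 (t(P))` (helper8's absolute logarithmic height of the value `valAt P t`), heights of
effective divisors are additive (`divH`).

`RedStmt inf t`: for every `n` there are constants `A, B` such that whenever `D` (of degree `≤ n`)
and `D'` are effective divisors supported off `inf`, `[D' - deg D' • inf] = [D - deg D • inf]`, and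
`D'` is the only effective divisor of its class (`ℓ(D') = 1`: this holds for the `inf`-reduced
representative), then `divH t D' ≤ A * divH t D + B`.

The theorem `red_core` (file `Red/Main.lean`) proves `RedStmt inf t` from `IsCurveOfGenus` and the
two pole conditions on `t`.
-/
import Mathlib
import Fermat.Agent.S17lib.HT.Height
import Fermat.Agent.LSb.Core.ValAt
import Fermat.Agent.S18lib.Setup.CurveRR

set_option autoImplicit false

noncomputable section

namespace Fermat.Agent.S17lib.Red

open AlgebraicCurve Fermat.Agent.S18lib Fermat.Agent.S17lib.HT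

variable {F : Type*} [Field F] [Algebra Qb F]

/-- the `t`-height of a place: the height of the value of `t` (junk at the poles of `t`) -/
def ptH (t : F) (P : Place Qb F) : ℝ := h1 (Fermat.Agent.LSb.Core.valAt P t)

theorem ptH_nonneg (t : F) (P : Place Qb F) : 0 ≤ ptH t P := h1_nonneg _

/-- the additive `t`-height of a divisor (used for effective divisors) -/
def divH (t : F) (D : Divisor Qb F) : ℝ := D.sum fun P n => (n : ℝ) * ptH t P

/-- **block RED**, the statement. -/
def RedStmt (inf : Place Qb F) (t : F) : Prop :=
  ∀ n : ℕ, ∃ A B : ℝ, 0 ≤ A ∧ 0 ≤ B ∧ ∀ D D' : Divisor Qb F,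
    (∀ P, 0 ≤ D P) → (∀ P, 0 ≤ D' P) → D inf = 0 → D' inf = 0 →
    Divisor.degree D ≤ (n : ℤ) →
    (D' - Divisor.degree D' • Finsupp.single inf (1 : ℤ))
        - (D - Divisor.degree D • Finsupp.single inf (1 : ℤ)) ∈
      Divisor.principal (K := Qb) (F := F) →
    Module.finrank Qb (riemannRochSpace D') = 1 →
    divH t D' ≤ A * divH t D + B

/-- the hypotheses on `(F, inf, t)` under which `red_core` proves `RedStmt` -/
structure RedSetting (g : ℕ) (inf : Place Qb F) (t : F) : Prop where
  curve : IsCurveOfGenus Qb F g
  reg : ∀ P : Place Qb F, P ≠ inf → 0 ≤ P.ord t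
  pole : inf.ord t < 0

end Fermat.Agent.S17lib.Red
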