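/-
S17lib / Red / Main  (helper1) — Project G, block RED: the theorem `red_core`.

`RedSetting g inf t → RedStmt inf t`: the additive `t`-height of the `inf`-reduced representative
`D'` of the class of an effective divisor `D` of bounded degree is at most `A · divH t D + B`.
Assembly of `Red/Core.lean` (`red_ne`) with helper3's `RedLin.exists_generator`,
`RedLin.exists_pts_eq`.
-/
import Mathlib
import Fermat.Agent.S17lib.Red.Stmt
import Fermat.Agent.S17lib.Red.Core

set_option autoImplicit false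

noncomputable section

namespace Fermat.Agent.S17lib.Red

open AlgebraicCurve Fermat.Agent.S18lib Fermat.Agent.LSb.Core Fermat.Agent.S17lib.RedLin
  Fermat.Agent.S17lib.HT Fermat.Agent.ProgramR

variable {F : Type*} [Field F] [Algebra Qb F]

theorem divH_ptsDiv (t : F) {n : ℕ} (P : Fin n → Place Qb F) :
    divH t (ptsDiv P) = ∑ i, ptH t (P i) := by
  classical
  unfold divH ptsDiv
  rw [← Finsupp.sum_finsetSum_index (h := fun P (n : ℤ) => (n : ℝ) * ptH t P)
    (fun _ => by simp) (fun _ _ _ => by push_cast; ring)]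
  refine Finset.sum_congr rfl fun i _ => ?_
  rw [Finsupp.sum_single_index (by simp)]
  simp

theorem divH_nonneg (t : F) {D : Divisor Qb F} (hD : ∀ P, 0 ≤ D P) : 0 ≤ divH t D := by
  unfold divH Finsupp.sum
  exact Finset.sum_nonneg fun P _ => mul_nonneg (by exact_mod_cast hD P) (ptH_nonneg t P)

/-- **block RED.** -/
theorem red_core {g : ℕ} {inf : Place Qb F} {t : F} (h : RedSetting g inf t) : RedStmt inf t := by
  classical
  obtain ⟨hF, hreg, hpole⟩ := h
  have hdeg := hF.deg_eq_one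
  have ht : t ∈ regRing inf := mem_regRing_iff_ord.mpr hreg
  obtain ⟨dt, hdt⟩ : ∃ dt : ℕ, inf.ord t = -(dt : ℤ) := ⟨(-inf.ord t).toNat, by omega⟩
  have hdt0 : 0 < dt := by omega
  intro n
  choose AA BB hAA hBB hmain using fun p : Fin (n + 1) × Fin (g + 1) =>
    red_ne hF inf t ht hdt hdt0 (p.1 : ℕ) (((p.1 : ℕ) : ℤ) - ((p.2 : ℕ) : ℤ))
  have hAs : 0 ≤ ∑ p, AA p := Finset.sum_nonneg fun p _ => hAA p
  have hBs : 0 ≤ ∑ p, BB p := Finset.sum_nonneg fun p _ => hBB p
  refine ⟨g * ∑ p, AA p, g * ∑ p, BB p, by positivity, by positivity,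
    fun D D' hD hD' hDinf hD'inf hdegD hprin h1 => ?_⟩
  obtain ⟨n', P, hP, rfl⟩ := exists_pts_eq inf hD hDinf
  have hn' : n' ≤ n := by
    rw [degree_ptsDiv hF] at hdegD
    exact_mod_cast hdegD
  obtain ⟨hd'g, φ₀, hφ₀, hdiv, hgen⟩ := exists_generator hF inf (ptsDiv P) D' hD' hprin h1
  rw [degree_ptsDiv hF P] at hdiv hgen
  have hd'0 : 0 ≤ Divisor.degree D' := Cech.degree_nonneg_of_nonneg hD'
  obtain ⟨d, hd⟩ : ∃ d : ℕ, Divisor.degree D' = d := ⟨(Divisor.degree D').toNat, by omega⟩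
  have hdg : d ≤ g := by
    rw [hd] at hd'g
    exact_mod_cast hd'g
  set p : Fin (n + 1) × Fin (g + 1) := (⟨n', by omega⟩, ⟨d, by omega⟩) with hp
  set e : ℤ := (n' : ℤ) - d with he
  rw [hd] at hdiv hgen
  have hsm : ((n' : ℤ) - (d : ℤ)) • Finsupp.single inf (1 : ℤ) = Finsupp.single inf e := by
    rw [Finsupp.smul_single, smul_eq_mul, mul_one]
  rw [hsm] at hgen
  have hdiv' : ∀ v : Place Qb F, v.ord φ₀ = D' v - ptsDiv P v + (Finsupp.single inf e) v := by
    intro v
    rw [hdiv v, Finsupp.single_apply, Finsupp.single_apply]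
    split_ifs <;> ring
  set x : Pts inf n' := ⟨P, hP⟩ with hx
  have hφ₀mem : φ₀ ∈ riemannRochSpace (ptsDiv P - Finsupp.single inf e) :=
    mem_rr_of_div inf hD' hφ₀ hdiv'
  set S : ℝ := divH t (ptsDiv P) with hS
  have hS0 : 0 ≤ S := divH_nonneg t (ptsDiv_nonneg P)
  -- the bound at each point of `D'`
  have hpt : ∀ Q, D' Q ≠ 0 → ptH t Q ≤ AA p * S + BB p := by
    intro Q hQ
    have hQinf : Q ≠ inf := by
      rintro rfl
      exact hQ hD'inf
    have hpos : 0 < D' Q := lt_of_le_of_ne (hD' Q) (Ne.symm hQ)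
    have hord : D' Q ≤ Q.ord (uX t x * φ₀) :=
      le_ord_mul_of_div inf hφ₀ hdiv' (uX_ne_zero hdt hdt0 x) hQinf
        (uX_ord_ge ht hdt hdt0 hdeg x hQinf)
    have := hmain p x φ₀ Q hQinf hφ₀ hφ₀mem hgen (by omega)
    rw [hS, divH_ptsDiv]
    exact this
  -- summation
  set M : ℝ := AA p * S + BB p with hM
  have hM0 : 0 ≤ M := by
    have := hAA p; have := hBB p
    positivity
  have h2 : divH t D' ≤ (Divisor.degree D' : ℝ) * M := by
    have hdegsum : (Divisor.degree D' : ℝ) = ∑ Q ∈ D'.support, (D' Q : ℝ) := by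
      rw [Cech.degree_eq_sum']
      push_cast
      refine Finset.sum_congr rfl fun Q _ => ?_
      rw [hdeg Q]
      simp
    rw [hdegsum, Finset.sum_mul]
    unfold divH Finsupp.sum
    refine Finset.sum_le_sum fun Q hQ => ?_
    have hQ0 : D' Q ≠ 0 := Finsupp.mem_support_iff.mp hQ
    exact mul_le_mul_of_nonneg_left (hpt Q hQ0) (by exact_mod_cast hD' Q)
  have h3 : (Divisor.degree D' : ℝ) * M ≤ g * M := by
    apply mul_le_mul_of_nonneg_right _ hM0
    rw [hd]
    exact_mod_cast hdg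
  have hA1 : AA p ≤ ∑ p, AA p :=
    Finset.single_le_sum (f := AA) (fun p _ => hAA p) (Finset.mem_univ p)
  have hB1 : BB p ≤ ∑ p, BB p :=
    Finset.single_le_sum (f := BB) (fun p _ => hBB p) (Finset.mem_univ p)
  have h4 : M ≤ (∑ p, AA p) * S + ∑ p, BB p := by
    have := mul_le_mul_of_nonneg_right hA1 hS0
    linarith
  have h5 : (g : ℝ) * M ≤ g * ((∑ p, AA p) * S + ∑ p, BB p) :=
    mul_le_mul_of_nonneg_left h4 (Nat.cast_nonneg g)
  calc divH t D' ≤ (Divisor.degree D' : ℝ) * M := h2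
    _ ≤ g * M := h3
    _ ≤ g * ((∑ p, AA p) * S + ∑ p, BB p) := h5
    _ = g * (∑ p, AA p) * S + g * ∑ p, BB p := by ring

end Fermat.Agent.S17lib.Red
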